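import Fermat.Agent.S21.H585.LowerBound

/-!
# Row S41, block PD — the dictionary `Hom(Γ, A)` ↔ Manin symbols, Spec-free core (helper201)

`Γ ≤ SL(2,ℤ)`, `X = SL(2,ℤ) ⧸ Γ`, cocycles `f (g * h) x = f h x + f g (h • x)` as in
`Fermat.Agent.S21.H585`.  Everything here is stated without the `Spec` files (only Mathlib and
`S21.H585`), so that it survives any move of the interface; the adapters to `Spec/PD.lean` are in
`PDDict.lean`.

Main tool: `exists_cobd_of_fixed` — on a finite `G`-set, a cocycle `f` with `f (g ^ k) x = 0` whenever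
`g ^ k • x = x` satisfies `f g = n|g - n` (coefficients in ANY abelian group).
-/

set_option autoImplicit false

namespace Fermat.Agent.S41.H201

open Matrix ModularGroup
open scoped MatrixGroups
open Fermat.Agent.S21.H585

section General

variable {G : Type*} [Group G] {X : Type*} [MulAction G X] {A : Type*} [AddCommGroup A]

lemma cocycle_pow_apply {f : G → X → A} (hf : IsCocycle f) (g : G) (k : ℕ) (x : X) :
    f (g ^ k) x = ∑ j ∈ Finset.range k, f g (g ^ j • x) := by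
  induction k with
  | zero => simp [hf.map_one]
  | succ k ih => rw [pow_succ', hf, ih, Finset.sum_range_succ]

lemma exists_pow_smul_eq_zpow_smul [Finite X] (g : G) (k : ℤ) (x : X) :
    ∃ j : ℕ, g ^ j • x = g ^ k • x := by
  have hfin : IsOfFinOrder (MulAction.toPermHom G X g) := isOfFinOrder_of_finite _
  have h1 : (MulAction.toPermHom G X g) ^ k ∈ Submonoid.powers (MulAction.toPermHom G X g) :=
    hfin.mem_powers_iff_mem_zpowers.mpr (Subgroup.zpow_mem_zpowers _ k)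
  obtain ⟨j, hj⟩ := h1
  refine ⟨j, ?_⟩
  have h2 : MulAction.toPermHom G X (g ^ j) = MulAction.toPermHom G X (g ^ k) := by
    rw [map_pow, map_zpow]; exact hj
  exact congrArg (fun σ : Equiv.Perm X => σ x) h2

/-- **Coboundary lemma**: if the cocycle `f` vanishes at `(g ^ k, x)` whenever `g ^ k` fixes `x`, then
`f g` is a coboundary `n|g - n`. -/
theorem exists_cobd_of_fixed [Finite X] {f : G → X → A} (hf : IsCocycle f) (g : G)
    (hvan : ∀ (k : ℕ) (x : X), g ^ k • x = x → f (g ^ k) x = 0) :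
    ∃ n : X → A, ∀ x, f g x = n (g • x) - n x := by
  classical
  have aux : ∀ (a d : ℕ) (r : X), g ^ a • r = g ^ (a + d) • r →
      f (g ^ a) r = f (g ^ (a + d)) r := by
    intro a d r h
    have h1 : g ^ d • (g ^ a • r) = g ^ a • r := by
      rw [smul_smul, ← pow_add, add_comm d a]; exact h.symm
    rw [add_comm a d, pow_add, hf, hvan d _ h1, add_zero]
  have key : ∀ (a b : ℕ) (r : X), g ^ a • r = g ^ b • r → f (g ^ a) r = f (g ^ b) r := by
    intro a b r h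
    rcases le_total a b with hab | hab
    · obtain ⟨d, rfl⟩ := Nat.exists_eq_add_of_le hab
      exact aux a d r h
    · obtain ⟨d, rfl⟩ := Nat.exists_eq_add_of_le hab
      exact (aux b d r h.symm).symm
  let rep : X → X := fun x => Quotient.out (orbMk g x)
  have hrep : ∀ x, ∃ k : ℕ, g ^ k • rep x = x := by
    intro x
    have h1 : orbMk g x = orbMk g (rep x) := (Quotient.out_eq' (orbMk g x)).symm
    obtain ⟨k, hk⟩ := (orbMk_eq_iff g x (rep x)).mp h1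
    obtain ⟨j, hj⟩ := exists_pow_smul_eq_zpow_smul g k (rep x)
    exact ⟨j, hj.trans hk⟩
  have hrep_smul : ∀ x, rep (g • x) = rep x := by
    intro x
    show Quotient.out (orbMk g (g • x)) = Quotient.out (orbMk g x)
    rw [orbMk_smul]
  choose k hk using hrep
  refine ⟨fun x => f (g ^ k x) (rep x), fun x => ?_⟩
  show f g x = f (g ^ k (g • x)) (rep (g • x)) - f (g ^ k x) (rep x)
  have h1 : g ^ k (g • x) • rep (g • x) = g ^ (k x + 1) • rep (g • x) := by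
    rw [hk (g • x), hrep_smul, pow_succ', mul_smul, hk x]
  rw [key _ _ _ h1, hrep_smul, pow_succ', hf, hk x]
  abel

end General

section Gen

lemma closure_S_ST_eq_top : Subgroup.closure ({S, S * T} : Set SL(2, ℤ)) = ⊤ := by
  rw [eq_top_iff, ← _root_.SpecialLinearGroup.SL2Z_generators, Subgroup.closure_le]
  rintro x (rfl | rfl)
  · exact Subgroup.subset_closure (by simp)
  · have h1 : S ∈ Subgroup.closure ({S, S * T} : Set SL(2, ℤ)) :=
      Subgroup.subset_closure (by simp)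
    have h2 : S * T ∈ Subgroup.closure ({S, S * T} : Set SL(2, ℤ)) :=
      Subgroup.subset_closure (by simp)
    have h3 := mul_mem (inv_mem h1) h2
    rwa [inv_mul_cancel_left] at h3

variable {X : Type*} [MulAction SL(2, ℤ) X] {A : Type*} [AddCommGroup A]

/-- A cocycle on `SL(2,ℤ)` is determined by its values on `S` and `S * T`. -/
theorem cocycle_ext_S_ST {f f' : SL(2, ℤ) → X → A} (hf : IsCocycle f) (hf' : IsCocycle f')
    (hS : ∀ x, f S x = f' S x) (hU : ∀ x, f (S * T) x = f' (S * T) x) (g : SL(2, ℤ)) (x : X) :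
    f g x = f' g x := by
  have hg : g ∈ Subgroup.closure ({S, S * T} : Set SL(2, ℤ)) := by
    rw [closure_S_ST_eq_top]; trivial
  induction hg using Subgroup.closure_induction generalizing x with
  | mem y hy =>
    rcases hy with rfl | rfl
    · exact hS x
    · exact hU x
  | one => rw [hf.map_one, hf'.map_one]
  | mul a b _ _ ha hb => rw [hf, hf', ha, hb]
  | inv a _ ha => rw [hf.map_inv', hf'.map_inv', ha]

end Gen


section Manin

variable (Γ : Subgroup SL(2, ℤ)) {A : Type*} [AddCommGroup A]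

/-- Spec-free form of `Spec.IsManinCocycle`. -/
def MCoc (f : SL(2, ℤ) → SL(2, ℤ) ⧸ Γ → A) (m : SL(2, ℤ) ⧸ Γ → A) : Prop :=
  (∀ (g h : SL(2, ℤ)) (x : SL(2, ℤ) ⧸ Γ), f (g * h) x = f h x + f g (h • x)) ∧
  (∀ x : SL(2, ℤ) ⧸ Γ, f S x = 0) ∧
  ∀ x : SL(2, ℤ) ⧸ Γ, f (S * T) x = m ((S * T) • x) - m x

/-- Spec-free form of `Spec.IsManinRep`. -/
def MRep (φ : Additive Γ →+ A) (m : SL(2, ℤ) ⧸ Γ → A) : Prop :=
  ∃ f : SL(2, ℤ) → SL(2, ℤ) ⧸ Γ → A, MCoc Γ f m ∧
    ∀ γ : Γ, φ (Additive.ofMul γ) = f (γ : SL(2, ℤ)) ((1 : SL(2, ℤ)) : SL(2, ℤ) ⧸ Γ)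

variable {Γ}

lemma MCoc.isCocycle {f : SL(2, ℤ) → SL(2, ℤ) ⧸ Γ → A} {m : SL(2, ℤ) ⧸ Γ → A}
    (h : MCoc Γ f m) : IsCocycle f := h.1

lemma MCoc.neg_one {f : SL(2, ℤ) → SL(2, ℤ) ⧸ Γ → A} {m : SL(2, ℤ) ⧸ Γ → A}
    (h : MCoc Γ f m) (x : SL(2, ℤ) ⧸ Γ) : f (-1) x = 0 := by
  rw [← S_mul_S_eq_neg_one, h.1, h.2.1, h.2.1, add_zero]

lemma MCoc.neg_apply {f : SL(2, ℤ) → SL(2, ℤ) ⧸ Γ → A} {m : SL(2, ℤ) ⧸ Γ → A}
    (h : MCoc Γ f m) (g : SL(2, ℤ)) (x : SL(2, ℤ) ⧸ Γ) : f (-g) x = f g x := by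
  have h1 : -g = (-1) * g := by simp
  rw [h1, h.1, h.neg_one, add_zero]

lemma MCoc.T_apply {f : SL(2, ℤ) → SL(2, ℤ) ⧸ Γ → A} {m : SL(2, ℤ) ⧸ Γ → A}
    (h : MCoc Γ f m) (x : SL(2, ℤ) ⧸ Γ) : f T x = m ((S * T) • x) - m x := by
  have h1 : T = S⁻¹ * (S * T) := by rw [inv_mul_cancel_left]
  conv_lhs => rw [h1]
  rw [h.1, h.isCocycle.map_inv', h.2.1, neg_zero, add_zero, h.2.2]

lemma neg_smul_quot (hneg : (-1 : SL(2, ℤ)) ∈ Γ) (g : SL(2, ℤ)) (x : SL(2, ℤ) ⧸ Γ) :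
    (-g) • x = g • x := by
  have h1 : -g = (-1) * g := by simp
  rw [h1, mul_smul, neg_one_smul_quot hneg]

lemma ST_cube_smul (hneg : (-1 : SL(2, ℤ)) ∈ Γ) (x : SL(2, ℤ) ⧸ Γ) :
    (S * T) • (S * T) • (S * T) • x = x := by
  rw [smul_smul, smul_smul, ST_cube_eq_neg_one, neg_one_smul_quot hneg]

/-- The value of a cocycle at a conjugate `h⁻¹ t h ∈ Γ`. -/
lemma cocycle_conj_inv {f : SL(2, ℤ) → SL(2, ℤ) ⧸ Γ → A} (hf : IsCocycle f)
    (h t : SL(2, ℤ)) (hmem : h⁻¹ * t * h ∈ Γ) :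
    f (h⁻¹ * t * h) (basePt Γ) = f t (h • basePt Γ) := by
  have h1 := hf.conj_apply (Γ := Γ) h⁻¹ t (by rw [inv_inv]; exact smul_basePt_of_mem Γ hmem)
  rwa [inv_inv] at h1

lemma fixed_iff_conj_mem (h t : SL(2, ℤ)) :
    t • (h • basePt Γ) = h • basePt Γ ↔ h⁻¹ * t * h ∈ Γ := by
  rw [smul_basePt_eq, MulAction.Quotient.smul_mk, smul_eq_mul, eq_comm, QuotientGroup.eq,
    mul_assoc]

/-- (D3) every Manin symbol represents a class. -/
theorem mrep_realize (hneg : (-1 : SL(2, ℤ)) ∈ Γ) (m : SL(2, ℤ) ⧸ Γ → A) :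
    ∃ φ : Additive Γ →+ A, MRep Γ φ m := by
  have hn := neg_one_smul_quot hneg
  obtain ⟨f, hf, hfS, hfU⟩ := exists_cocycle hn (0 : SL(2, ℤ) ⧸ Γ → A)
    (fun x => m ((S * T) • x) - m x) (by simp) (by
      intro x
      simp only [ST_cube_smul hneg]
      abel)
  exact ⟨homOfCocycle Γ f hf, f, ⟨hf, fun x => by rw [hfS]; rfl, fun x => by rw [hfU]⟩,
    fun γ => rfl⟩

/-- (D3') represented classes kill the elements of finite order (given the classification of the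
torsion elements of `SL(2,ℤ)` up to conjugacy). -/
theorem mrep_torsion
    (tors : ∀ g : SL(2, ℤ), IsOfFinOrder g →
      ∃ h : SL(2, ℤ), h * g * h⁻¹ = 1 ∨ h * g * h⁻¹ = -1 ∨ h * g * h⁻¹ = S ∨ h * g * h⁻¹ = -S ∨
        h * g * h⁻¹ = S * T ∨ h * g * h⁻¹ = -(S * T) ∨ h * g * h⁻¹ = (S * T) ^ 2 ∨
        h * g * h⁻¹ = -(S * T) ^ 2)
    (hneg : (-1 : SL(2, ℤ)) ∈ Γ) (φ : Additive Γ →+ A) (m : SL(2, ℤ) ⧸ Γ → A)
    (hrep : MRep Γ φ m) (γ : Γ) (hγ : IsOfFinOrder γ) : φ (Additive.ofMul γ) = 0 := by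
  obtain ⟨f, hf, hφ⟩ := hrep
  have hc := hf.isCocycle
  have hγ' : IsOfFinOrder (γ : SL(2, ℤ)) := (Γ.subtype).isOfFinOrder hγ
  obtain ⟨h, ht⟩ := tors _ hγ'
  -- the four basic cases
  have P1 : ∀ y : SL(2, ℤ) ⧸ Γ, f 1 y = 0 := fun y => hc.map_one y
  have PS : ∀ y : SL(2, ℤ) ⧸ Γ, f S y = 0 := hf.2.1
  have PU : ∀ y : SL(2, ℤ) ⧸ Γ, (S * T) • y = y → f (S * T) y = 0 := by
    intro y hy
    rw [hf.2.2, hy, sub_self]
  have PU2 : ∀ y : SL(2, ℤ) ⧸ Γ, (S * T) ^ 2 • y = y → f ((S * T) ^ 2) y = 0 := by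
    intro y hy
    rw [pow_two, hc, hf.2.2, hf.2.2]
    rw [pow_two, mul_smul] at hy
    rw [hy]
    abel
  -- conclusion
  have main : ∀ t : SL(2, ℤ), h * (γ : SL(2, ℤ)) * h⁻¹ = t →
      (∀ y : SL(2, ℤ) ⧸ Γ, t • y = y → f t y = 0) → φ (Additive.ofMul γ) = 0 := by
    intro t ht hP
    have h1 : (γ : SL(2, ℤ)) = h⁻¹ * t * h := by
      rw [← ht]; group
    have hmem : h⁻¹ * t * h ∈ Γ := by rw [← h1]; exact γ.2
    have h2 := cocycle_conj_inv hc h t hmem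
    rw [hφ, h1]
    show f (h⁻¹ * t * h) (basePt Γ) = 0
    rw [h2]
    exact hP _ ((fixed_iff_conj_mem h t).mpr hmem)
  rcases ht with ht | ht | ht | ht | ht | ht | ht | ht
  · exact main _ ht fun y _ => P1 y
  · exact main _ ht fun y _ => hf.neg_one y
  · exact main _ ht fun y _ => PS y
  · exact main _ ht fun y _ => by rw [hf.neg_apply]; exact PS y
  · exact main _ ht PU
  · exact main _ ht fun y hy => by
      rw [hf.neg_apply]; exact PU y (by rwa [neg_smul_quot hneg] at hy)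
  · exact main _ ht PU2
  · exact main _ ht fun y hy => by
      rw [hf.neg_apply]; exact PU2 y (by rwa [neg_smul_quot hneg] at hy)

lemma trace_conj_T_pow (h : SL(2, ℤ)) (k : ℕ) :
    ((h⁻¹ * T ^ k * h : SL(2, ℤ)) : Matrix (Fin 2) (Fin 2) ℤ).trace = 2 := by
  rw [Matrix.SpecialLinearGroup.coe_mul, Matrix.trace_mul_comm, ← Matrix.SpecialLinearGroup.coe_mul,
    mul_inv_cancel_left, ← zpow_natCast, coe_T_zpow, Matrix.trace_fin_two]
  simp

/-- (D4) `φ` is parabolic iff `m` has parabolic data. -/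
theorem mrep_parabolic [Γ.FiniteIndex] (hneg : (-1 : SL(2, ℤ)) ∈ Γ) (φ : Additive Γ →+ A)
    (m : SL(2, ℤ) ⧸ Γ → A) (hrep : MRep Γ φ m) :
    (∀ γ : Γ, ((γ : SL(2, ℤ)) : Matrix (Fin 2) (Fin 2) ℤ).trace ^ 2 = 4 →
        φ (Additive.ofMul γ) = 0) ↔
      ∃ e : SL(2, ℤ) ⧸ Γ → A, ∀ x, e (T • x) - e x = m ((S * T) • x) - m x := by
  obtain ⟨f, hf, hφ⟩ := hrep
  have hc := hf.isCocycle
  have hn := neg_one_smul_quot hneg
  constructor
  · intro hpar
    have hvan : ∀ (k : ℕ) (x : SL(2, ℤ) ⧸ Γ), T ^ k • x = x → f (T ^ k) x = 0 := by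
      intro k x hx
      rw [← out_smul_basePt Γ x] at hx ⊢
      have hmem : (Quotient.out x : SL(2, ℤ))⁻¹ * T ^ k * Quotient.out x ∈ Γ :=
        (fixed_iff_conj_mem _ _).mp hx
      rw [← cocycle_conj_inv hc _ _ hmem]
      have h1 := hpar ⟨_, hmem⟩ (by rw [trace_conj_T_pow]; norm_num)
      rw [hφ] at h1
      exact h1
    obtain ⟨e, he⟩ := exists_cobd_of_fixed hc T hvan
    exact ⟨e, fun x => by rw [← he, hf.T_apply]⟩
  · rintro ⟨e, he⟩ γ hγ
    have hfT : ∀ x, f T x = e (T • x) - e x := fun x => by rw [hf.T_apply, he]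
    have hzpow := hc.zpow_of_cobd T e hfT
    rw [hφ]
    show f (γ : SL(2, ℤ)) (basePt Γ) = 0
    have key : ∀ (g : SL(2, ℤ)) (k : ℤ), (g * T ^ k * g⁻¹) • basePt Γ = basePt Γ →
        f (g * T ^ k * g⁻¹) (basePt Γ) = 0 := by
      intro g k hfix
      rw [hc.conj_apply g (T ^ k) hfix, hzpow]
      have h1 : T ^ k • g⁻¹ • basePt Γ = g⁻¹ • basePt Γ := by
        calc T ^ k • g⁻¹ • basePt Γ = g⁻¹ • (g * T ^ k * g⁻¹) • basePt Γ := by
              simp only [mul_smul, inv_smul_smul]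
          _ = g⁻¹ • basePt Γ := by rw [hfix]
      rw [h1, sub_self]
    obtain ⟨g, k, h | h⟩ := exists_conj_T_zpow (γ : SL(2, ℤ)) hγ
    · rw [h]
      apply key
      rw [← h]
      exact smul_basePt_of_mem Γ γ.2
    · have h2 : (g * T ^ k * g⁻¹) • basePt Γ = basePt Γ := by
        have h3 : g * T ^ k * g⁻¹ = -(γ : SL(2, ℤ)) := by
          rw [h]; simp
        rw [h3, neg_smul_quot hneg, smul_basePt_of_mem Γ γ.2]
      rw [h, hf.neg_apply]
      exact key g k h2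

end Manin

end Fermat.Agent.S41.H201
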