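import Fermat.Agent.S41.Spec.PD
import Fermat.Agent.S41.H201.PDDictCore

/-!
# Row S41, block PD, leaves DICT-b (helper201): adapters to `Spec/PD.lean`

* `maninRepRealize  : Spec.ManinRepRealizeStatement`   (D3)
* `maninRepTorsion  : Spec.TorsionClassStatement → Spec.ManinRepTorsionStatement`   (D3')
* `maninRepParabolic : Spec.ManinRepParabolicStatement`   (D4)

The proofs are in `PDDictCore.lean` (Spec-free).
-/

set_option autoImplicit false

namespace Fermat.Agent.S41.H201

open Matrix ModularGroup
open scoped MatrixGroups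

universe u

theorem mrep_iff_isManinRep {Γ : Subgroup SL(2, ℤ)} {A : Type*} [AddCommGroup A]
    (φ : Additive Γ →+ A) (m : SL(2, ℤ) ⧸ Γ → A) : MRep Γ φ m ↔ Spec.IsManinRep Γ φ m := Iff.rfl

/-- (D3) -/
theorem maninRepRealize : Spec.ManinRepRealizeStatement.{u} :=
  fun _ _ hneg _ _ m => mrep_realize hneg m

/-- (D3') -/
theorem maninRepTorsion (tors : Spec.TorsionClassStatement) : Spec.ManinRepTorsionStatement.{u} :=
  fun _ _ hneg _ _ φ m hrep => mrep_torsion tors hneg φ m hrep

/-- (D4) -/
theorem maninRepParabolic : Spec.ManinRepParabolicStatement.{u} :=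
  fun _ _ hneg _ _ φ m hrep => mrep_parabolic hneg φ m hrep

end Fermat.Agent.S41.H201
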